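/-
S40 research support (helper38): LEMMA DET.
For a finite free module `M` over a principal ideal domain `O` and an injective
endomorphism `φ`, the length of the cokernel `M ⧸ range φ` equals the order of
vanishing `Ring.ord O (det φ)` (= length of `O ⧸ (det φ)`).
Mathlib only.
-/
import Mathlib

namespace Fermat.Agent.S40x.TameAlg.DetLength

open Module

section ord

variable {O : Type*} [CommRing O] [IsDomain O]

/-- `Ring.ord` of a finite product of nonzero elements is the sum of the `Ring.ord`s. -/
theorem ord_prod {ι : Type*} (s : Finset ι) (a : ι → O) (ha : ∀ i ∈ s, a i ≠ 0) :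
    Ring.ord O (∏ i ∈ s, a i) = ∑ i ∈ s, Ring.ord O (a i) := by
  classical
  induction s using Finset.induction_on with
  | empty => simp
  | insert i s hi ih =>
    rw [Finset.prod_insert hi, Finset.sum_insert hi]
    have hprod : (∏ j ∈ s, a j) ∈ nonZeroDivisors O := by
      rw [mem_nonZeroDivisors_iff_ne_zero]
      exact Finset.prod_ne_zero_iff.mpr (fun j hj => ha j (Finset.mem_insert_of_mem hj))
    rw [Ring.ord_mul O hprod, ih (fun j hj => ha j (Finset.mem_insert_of_mem hj))]

end ord

section det

variable {O : Type*} [CommRing O]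
variable {M : Type*} [AddCommGroup M] [Module O M]

/-- The determinant of an endomorphism sending a basis `c` to `a i • b' i` is associated to
`∏ a i`. -/
theorem det_associated_prod {ι : Type*} [Fintype ι] [DecidableEq ι]
    (b' c : Basis ι O M) (a : ι → O) (φ : M →ₗ[O] M)
    (h : ∀ i, φ (c i) = a i • b' i) :
    Associated (LinearMap.det φ) (∏ i, a i) := by
  let g : M ≃ₗ[O] M := b'.equiv c (Equiv.refl ι)
  let D : M →ₗ[O] M := b'.constr O (fun i => a i • b' i)
  have hcomp : φ ∘ₗ (g : M →ₗ[O] M) = D := by
    apply b'.ext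
    intro i
    simp [g, D, h]
  have hD : LinearMap.det D = ∏ i, a i := by
    rw [← LinearMap.det_toMatrix b']
    have : LinearMap.toMatrix b' b' D = Matrix.diagonal a := by
      ext i j
      simp only [LinearMap.toMatrix_apply, D, Basis.constr_basis, map_smul, Basis.repr_self,
        Finsupp.smul_apply, smul_eq_mul, Matrix.diagonal_apply]
      by_cases hij : i = j
      · subst hij; simp
      · simp [hij]
    rw [this, Matrix.det_diagonal]
  have hdet : LinearMap.det φ * LinearMap.det (g : M →ₗ[O] M) = ∏ i, a i := by
    rw [← LinearMap.det_comp, hcomp, hD]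
  have hu : IsUnit (LinearMap.det (g : M →ₗ[O] M)) := LinearEquiv.isUnit_det' g
  rw [← hdet]
  exact (associated_mul_unit_right _ _ hu)

end det

variable {O : Type*} [CommRing O] [IsDomain O] [IsPrincipalIdealRing O]
variable {M : Type*} [AddCommGroup M] [Module O M]

omit [IsDomain O] [IsPrincipalIdealRing O] in
/-- The quotient of a free module by a submodule in (square) Smith normal form has length
`∑ ord (a i)`. -/
theorem length_quotient_of_snf {ι : Type*} [Fintype ι] [DecidableEq ι]
    (N : Submodule O M) (b' : Basis ι O M) (a : ι → O) (ab' : Basis ι O N)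
    (hab : ∀ i, (ab' i : M) = a i • b' i) :
    Module.length O (M ⧸ N) = ∑ i, Ring.ord O (a i) := by
  let N' : Submodule O (ι → O) := Submodule.pi Set.univ (fun i => Ideal.span {a i})
  have hmap : N.map (b'.equivFun : M →ₗ[O] (ι → O)) = N' := by
    ext x
    simp only [Submodule.mem_map, N', Submodule.mem_pi, Set.mem_univ, true_implies,
      Ideal.mem_span_singleton]
    constructor
    · rintro ⟨y, hy, rfl⟩ i
      obtain ⟨c, rfl⟩ := (ab'.mem_submodule_iff' (x := y)).mp hy
      refine ⟨c i, ?_⟩
      simp only [LinearEquiv.coe_coe, map_sum, map_smul, hab, Basis.equivFun_apply,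
        Basis.repr_self, Finset.sum_apply, Pi.smul_apply, smul_eq_mul]
      rw [Finset.sum_eq_single i]
      · simp [mul_comm]
      · intro j _ hji
        simp [hji]
      · intro h; exact absurd (Finset.mem_univ i) h
    · intro h
      choose c hc using h
      refine ⟨∑ i, c i • (ab' i : M), ?_, ?_⟩
      · exact Submodule.sum_mem _ (fun i _ => Submodule.smul_mem _ _ (ab' i).2)
      · ext i
        simp only [LinearEquiv.coe_coe, map_sum, map_smul, hab, Basis.equivFun_apply,
          Basis.repr_self, Finset.sum_apply, Pi.smul_apply, smul_eq_mul]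
        rw [Finset.sum_eq_single i]
        · simp [hc i, mul_comm]
        · intro j _ hji
          simp [hji]
        · intro h; exact absurd (Finset.mem_univ i) h
  have e1 : (M ⧸ N) ≃ₗ[O] ((ι → O) ⧸ N') := Submodule.Quotient.equiv N N' b'.equivFun hmap
  have e2 : ((ι → O) ⧸ N') ≃ₗ[O] (∀ i, O ⧸ Ideal.span {a i}) :=
    Submodule.quotientPi (fun i => Ideal.span {a i})
  rw [(e1.trans e2).length_eq, Module.length_pi_of_fintype]
  rfl

/-- Smith-normal-form data of an injective endomorphism `φ` of a finite free module over a PID: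
nonzero elementary divisors `a i` with `det φ ~ ∏ a i` and `length (M ⧸ range φ) = ∑ ord (a i)`. -/
theorem exists_elementary_divisors [Module.Free O M] [Module.Finite O M]
    (φ : M →ₗ[O] M) (hφ : Function.Injective φ) :
    ∃ a : Module.Free.ChooseBasisIndex O M → O, (∀ i, a i ≠ 0) ∧
      Associated (LinearMap.det φ) (∏ i, a i) ∧
      Module.length O (M ⧸ LinearMap.range φ) = ∑ i, Ring.ord O (a i) := by
  classical
  let b := Module.Free.chooseBasis O M
  let e : M ≃ₗ[O] LinearMap.range φ := LinearEquiv.ofInjective φ hφ
  have hrank : Module.finrank O (LinearMap.range φ) = Module.finrank O M := e.finrank_eq.symm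
  obtain ⟨b', a, ab', hab⟩ := Submodule.exists_smith_normal_form_of_rank_eq b hrank
  have ha : ∀ i, a i ≠ 0 := by
    intro i hi
    have h0 : (ab' i : M) = 0 := by rw [hab, hi, zero_smul]
    exact ab'.ne_zero i (Subtype.ext h0)
  let c : Basis _ O M := ab'.map e.symm
  have hc : ∀ i, φ (c i) = a i • b' i := by
    intro i
    have : φ (c i) = (e (c i) : M) := rfl
    rw [this, ← hab]
    simp [c]
  exact ⟨a, ha, det_associated_prod b' c a φ hc, length_quotient_of_snf _ b' a ab' hab⟩

/-- An injective endomorphism of a finite free module over a PID has nonzero determinant. -/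
theorem det_ne_zero_of_injective [Module.Free O M] [Module.Finite O M]
    (φ : M →ₗ[O] M) (hφ : Function.Injective φ) : LinearMap.det φ ≠ 0 := by
  obtain ⟨a, ha, hassoc, -⟩ := exists_elementary_divisors φ hφ
  intro h0
  rw [h0] at hassoc
  have : (∏ i, a i) = 0 := by
    obtain ⟨w, hw⟩ := hassoc
    rw [← hw, zero_mul]
  exact (Finset.prod_ne_zero_iff.mpr (fun i _ => ha i)) this

/-- **LEMMA DET.** For an injective endomorphism `φ` of a finite free module over a PID,
`length (M ⧸ range φ) = ord (det φ)`. -/
theorem length_quotient_range_eq_ord_det [Module.Free O M] [Module.Finite O M]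
    (φ : M →ₗ[O] M) (hφ : Function.Injective φ) :
    Module.length O (M ⧸ LinearMap.range φ) = Ring.ord O (LinearMap.det φ) := by
  obtain ⟨a, ha, hassoc, hlen⟩ := exists_elementary_divisors φ hφ
  rw [hlen, Ring.ord_eq_of_associated hassoc, ord_prod _ _ (fun i _ => ha i)]

/-- If `det φ` is a `p`-th power in the fraction field, the length of the cokernel of `φ`
is a multiple of `p`. -/
theorem length_quotient_range_eq_nsmul_of_det_eq_pow [Module.Free O M] [Module.Finite O M]
    {K : Type*} [Field K] [Algebra O K] [IsFractionRing O K]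
    (φ : M →ₗ[O] M) (hφ : Function.Injective φ) (p : ℕ) (hp : 0 < p) (c : K)
    (hc : c ^ p = algebraMap O K (LinearMap.det φ)) :
    ∃ k : ℕ∞, Module.length O (M ⧸ LinearMap.range φ) = p • k := by
  have hint : IsIntegral O c := by
    refine ⟨Polynomial.X ^ p - Polynomial.C (LinearMap.det φ),
      Polynomial.monic_X_pow_sub_C _ hp.ne', ?_⟩
    simp [hc]
  obtain ⟨c0, rfl⟩ := IsIntegrallyClosed.isIntegral_iff.mp hint
  have hc0 : c0 ^ p = LinearMap.det φ := by
    apply IsFractionRing.injective O K
    rw [map_pow, hc]
  have hne : c0 ≠ 0 := by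
    intro h0
    apply det_ne_zero_of_injective φ hφ
    rw [← hc0, h0, zero_pow hp.ne']
  refine ⟨Ring.ord O c0, ?_⟩
  rw [length_quotient_range_eq_ord_det φ hφ, ← hc0,
    Ring.ord_pow (mem_nonZeroDivisors_of_ne_zero hne)]

end Fermat.Agent.S40x.TameAlg.DetLength
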