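/-
S40 research support (helper38): ring-level packaging of LEMMA DET.
`O` a PID, `R` a commutative `O`-algebra, `g u : R` with `R ⧸ (g)` finite free over `O` and
multiplication by `u` injective on it.  Then
  `length_O (R ⧸ (g, u)) = ord_O (Algebra.norm O (u mod g))`.
Mathlib + DetLength only.
-/
import Fermat.Agent.S40x.TameAlg.DetLength

namespace Fermat.Agent.S40x.TameAlg.EdgeCore

open Module

variable {O : Type*} [CommRing O] [IsDomain O] [IsPrincipalIdealRing O]
variable {R : Type*} [CommRing R] [Algebra O R]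

/-- For an ideal `I` and `u : R`: `(R ⧸ I) ⧸ range (mul by u)` is `O`-linearly equivalent to
`R ⧸ (I ⊔ (u))`. -/
noncomputable def quotRangeMulEquiv (I : Ideal R) (u : R) :
    ((R ⧸ I) ⧸ LinearMap.range (LinearMap.mulLeft O (Ideal.Quotient.mk I u))) ≃ₗ[O]
      (R ⧸ (I ⊔ Ideal.span {u})) := by
  have hrange : LinearMap.range (LinearMap.mulLeft O (Ideal.Quotient.mk I u)) =
      ((Ideal.span {u}).map (Ideal.Quotient.mkₐ O I)).restrictScalars O := by
    ext x
    simp only [LinearMap.mem_range, LinearMap.mulLeft_apply, Submodule.restrictScalars_mem]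
    rw [Ideal.map_span, Set.image_singleton, Ideal.mem_span_singleton']
    constructor
    · rintro ⟨y, rfl⟩; exact ⟨y, by rw [mul_comm]; rfl⟩
    · rintro ⟨y, rfl⟩; exact ⟨y, by rw [mul_comm]; rfl⟩
  exact (Submodule.quotEquivOfEq _ _ hrange).trans
    ((DoubleQuot.quotQuotEquivQuotSupₐ O I (Ideal.span {u})).toLinearEquiv)

/-- **Edge core.** `length_O (R ⧸ ((g) ⊔ (u))) = ord_O (norm_{(R/g)/O} (u mod g))`. -/
theorem length_quot_sup_eq_ord_norm (g u : R)
    [Module.Free O (R ⧸ Ideal.span {g})] [Module.Finite O (R ⧸ Ideal.span {g})]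
    (hinj : Function.Injective
      (LinearMap.mulLeft O (Ideal.Quotient.mk (Ideal.span {g}) u))) :
    Module.length O (R ⧸ (Ideal.span {g} ⊔ Ideal.span {u})) =
      Ring.ord O (Algebra.norm O (Ideal.Quotient.mk (Ideal.span {g}) u)) := by
  rw [← (quotRangeMulEquiv (O := O) (Ideal.span {g}) u).length_eq,
    DetLength.length_quotient_range_eq_ord_det _ hinj]
  rfl

/-- If the norm of `u mod g` is a `p`-th power in the fraction field of `O`, then
`length_O (R ⧸ ((g) ⊔ (u)))` is a multiple of `p`. -/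
theorem length_quot_sup_eq_nsmul (g u : R)
    [Module.Free O (R ⧸ Ideal.span {g})] [Module.Finite O (R ⧸ Ideal.span {g})]
    (hinj : Function.Injective
      (LinearMap.mulLeft O (Ideal.Quotient.mk (Ideal.span {g}) u)))
    {K : Type*} [Field K] [Algebra O K] [IsFractionRing O K] (p : ℕ) (hp : 0 < p) (c : K)
    (hc : c ^ p = algebraMap O K (Algebra.norm O (Ideal.Quotient.mk (Ideal.span {g}) u))) :
    ∃ k : ℕ∞, Module.length O (R ⧸ (Ideal.span {g} ⊔ Ideal.span {u})) = p • k := by
  rw [← (quotRangeMulEquiv (O := O) (Ideal.span {g}) u).length_eq]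
  exact DetLength.length_quotient_range_eq_nsmul_of_det_eq_pow _ hinj p hp c hc

end Fermat.Agent.S40x.TameAlg.EdgeCore
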