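/-
S40 research support (helper38): generic-fibre side of the determinant form of the edge lemma.
`K` a field, `S` a Dedekind domain and `K`-algebra, `u : S`.  For nonzero ideals `I, J` with
`S ⧸ I * J` finite-dimensional over `K`:
  `det_K (u | S ⧸ I * J) = det_K (u | S ⧸ I) * det_K (u | S ⧸ J)`,
hence `norm_K (u mod I ^ p) = (norm_K (u mod I)) ^ p`.
Mathlib only.
-/
import Mathlib

namespace Fermat.Agent.S40x.TameAlg.GenericNorm

open Module

section mdet

variable (K : Type*) {S : Type*} [Field K] [CommRing S] [Algebra K S]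

/-- Determinant over `K` of multiplication by `u : S` on the `S`-module `N`. -/
noncomputable def mdet (N : Type*) [AddCommGroup N] [Module S N] [Module K N]
    [IsScalarTower K S N] (u : S) : K :=
  LinearMap.det (Algebra.lsmul K K N u)

variable {K}
variable {N N' : Type*} [AddCommGroup N] [Module S N] [Module K N] [IsScalarTower K S N]
  [AddCommGroup N'] [Module S N'] [Module K N'] [IsScalarTower K S N']

theorem mdet_congr (e : N ≃ₗ[S] N') (u : S) : mdet K N u = mdet K N' u := by
  unfold mdet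
  rw [← LinearMap.det_conj (Algebra.lsmul K K N u) (e.restrictScalars K)]
  congr 1
  ext x
  simp

theorem mdet_of_subsingleton [Subsingleton N] (u : S) : mdet K N u = 1 := by
  unfold mdet
  exact LinearMap.det_eq_one_of_subsingleton _

/-- Multiplicativity of `mdet` in short exact sequences `0 → W → N → N ⧸ W → 0`. -/
theorem mdet_eq_mul [Module.Finite K N] (W : Submodule S N) (u : S) :
    mdet K N u = mdet K W u * mdet K (N ⧸ W) u := by
  classical
  let W' : Submodule K N := W.restrictScalars K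
  have he : W' ≤ W'.comap (Algebra.lsmul K K N u) := by
    intro x hx
    exact W.smul_mem u hx
  have h := LinearMap.det_eq_det_mul_det W' (Algebra.lsmul K K N u) he
  unfold mdet
  rw [h]
  rfl

end mdet

section dedekind

variable {S : Type*} [CommRing S] [IsDedekindDomain S]

/-- Dedekind cancellation: if `I * J ⊔ (a) = I` and `x * a ∈ I * J` then `x ∈ J`. -/
theorem mem_of_mul_mem_mul {I J : Ideal S} (hI : I ≠ ⊥) {a : S}
    (ha : I * J ⊔ Ideal.span {a} = I) {x : S} (hx : x * a ∈ I * J) : x ∈ J := by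
  have haI : Ideal.span {a} ≤ I := by rw [← ha]; exact le_sup_right
  obtain ⟨A', hA'⟩ := Ideal.dvd_iff_le.mpr haI
  have hcop : J ⊔ A' = ⊤ := by
    have h1 : I * (J ⊔ A') = I * ⊤ := by
      rw [Ideal.mul_sup, ← hA', ha, Ideal.mul_top]
    exact mul_left_cancel₀ hI h1
  have h2 : Ideal.span {x} * A' ≤ J := by
    have h3 : I * (Ideal.span {x} * A') ≤ I * J := by
      rw [← mul_assoc, mul_comm I, mul_assoc, ← hA', Ideal.span_singleton_mul_span_singleton,
        Ideal.span_singleton_le_iff_mem]
      exact hx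
    have h4 : I * J ∣ I * (Ideal.span {x} * A') := Ideal.dvd_iff_le.mpr h3
    exact Ideal.dvd_iff_le.mp ((mul_dvd_mul_iff_left hI).mp h4)
  have h5 : Ideal.span {x} = Ideal.span {x} * J ⊔ Ideal.span {x} * A' := by
    rw [← Ideal.mul_sup, hcop, Ideal.mul_top]
  rw [← Ideal.span_singleton_le_iff_mem, h5]
  exact sup_le Ideal.mul_le_right h2

/-- For nonzero ideals `I, J` of a Dedekind domain, the image of `I` in `S ⧸ I * J` is
`S`-linearly isomorphic to `S ⧸ J`. -/
theorem nonempty_map_mkQ_equiv (I J : Ideal S) (hI : I ≠ ⊥) (hJ : J ≠ ⊥) :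
    Nonempty ((Submodule.map (Submodule.mkQ (I * J)) I) ≃ₗ[S] (S ⧸ J)) := by
  obtain ⟨a, ha⟩ := IsDedekindDomain.exists_sup_span_eq (Ideal.mul_le_left : I * J ≤ I)
    (mul_ne_zero hI hJ)
  have haI : a ∈ I := by
    rw [← ha]; exact Ideal.mem_sup_right (Ideal.mem_span_singleton_self a)
  let ψ : S →ₗ[S] (S ⧸ I * J) := LinearMap.toSpanSingleton S (S ⧸ I * J) (Submodule.mkQ (I * J) a)
  have hrange : LinearMap.range ψ = Submodule.map (Submodule.mkQ (I * J)) I := by
    rw [LinearMap.range_toSpanSingleton]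
    have h1 : Submodule.map (Submodule.mkQ (I * J)) I =
        Submodule.map (Submodule.mkQ (I * J)) (I * J ⊔ Ideal.span {a}) := by
      congr 1; exact ha.symm
    rw [h1, Submodule.map_sup, Submodule.mkQ_map_self, bot_sup_eq, Ideal.span, Submodule.map_span,
      Set.image_singleton]
  have hker : LinearMap.ker ψ = J := by
    ext x
    simp only [LinearMap.mem_ker, ψ, LinearMap.toSpanSingleton_apply]
    rw [← map_smul, Submodule.mkQ_apply, Submodule.Quotient.mk_eq_zero, smul_eq_mul]
    constructor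
    · intro hx
      exact mem_of_mul_mem_mul hI ha hx
    · intro hx
      rw [mul_comm x a]
      exact Ideal.mul_mem_mul haI hx
  exact ⟨(LinearEquiv.ofEq _ _ hrange.symm).trans
    ((LinearMap.quotKerEquivRange ψ).symm.trans (Submodule.quotEquivOfEq _ _ hker))⟩

end dedekind

section main

variable {K S : Type*} [Field K] [CommRing S] [Algebra K S] [IsDedekindDomain S]

/-- Multiplicativity of `I ↦ det_K (u | S ⧸ I)` on nonzero ideals of a Dedekind domain. -/
theorem mdet_quot_mul (I J L : Ideal S) (hL : L = I * J) (hI : I ≠ ⊥) (hJ : J ≠ ⊥)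
    [Module.Finite K (S ⧸ L)] (u : S) :
    mdet K (S ⧸ L) u = mdet K (S ⧸ I) u * mdet K (S ⧸ J) u := by
  subst hL
  obtain ⟨e⟩ := nonempty_map_mkQ_equiv I J hI hJ
  rw [mdet_eq_mul (Submodule.map (Submodule.mkQ (I * J)) I) u, mdet_congr e u,
    mdet_congr (Submodule.quotientQuotientEquivQuotient (I * J) I Ideal.mul_le_left) u, mul_comm]

omit [IsDedekindDomain S] in
theorem mdet_quot_eq_norm (I : Ideal S) (u : S) :
    mdet K (S ⧸ I) u = Algebra.norm K (Ideal.Quotient.mk I u) := by
  unfold mdet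
  rw [Algebra.norm_apply]
  congr 1

/-- `det_K (u | S ⧸ I ^ n) = det_K (u | S ⧸ I) ^ n`. -/
theorem mdet_quot_pow (I : Ideal S) (hI : I ≠ ⊥) (u : S) :
    ∀ n : ℕ, Module.Finite K (S ⧸ I ^ n) → mdet K (S ⧸ I ^ n) u = (mdet K (S ⧸ I) u) ^ n := by
  intro n
  induction n with
  | zero =>
    intro _
    have : Subsingleton (S ⧸ I ^ 0) := by
      rw [pow_zero, Ideal.one_eq_top]
      exact Ideal.Quotient.subsingleton_iff.mpr rfl
    rw [mdet_of_subsingleton]
    simp
  | succ n ih =>
    intro hfin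
    have hle : I ^ (n + 1) ≤ I ^ n := Ideal.pow_le_pow_right (Nat.le_succ n)
    have hfin' : Module.Finite K (S ⧸ I ^ n) :=
      Module.Finite.of_surjective (Ideal.Quotient.factorₐ K hle).toLinearMap
        (Ideal.Quotient.factor_surjective hle)
    have hle1 : I ^ (n + 1) ≤ I := by
      calc I ^ (n + 1) ≤ I ^ 1 := Ideal.pow_le_pow_right (Nat.succ_le_succ (Nat.zero_le n))
        _ = I := pow_one I
    have hfin1 : Module.Finite K (S ⧸ I) :=
      Module.Finite.of_surjective (Ideal.Quotient.factorₐ K hle1).toLinearMap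
        (Ideal.Quotient.factor_surjective hle1)
    rw [mdet_quot_mul (I ^ n) I (I ^ (n + 1)) (pow_succ I n) (pow_ne_zero n hI) hI u,
      ih hfin', pow_succ]

/-- **Generic-fibre lemma.** For a nonzero ideal `I` of a Dedekind `K`-algebra `S` with
`S ⧸ I ^ p` finite-dimensional: `norm_K (u mod I ^ p) = (norm_K (u mod I)) ^ p`. -/
theorem norm_quot_pow (I : Ideal S) (hI : I ≠ ⊥) (p : ℕ) [Module.Finite K (S ⧸ I ^ p)]
    (u : S) :
    Algebra.norm K (Ideal.Quotient.mk (I ^ p) u) = (Algebra.norm K (Ideal.Quotient.mk I u)) ^ p := by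
  rw [← mdet_quot_eq_norm, ← mdet_quot_eq_norm, mdet_quot_pow I hI u p inferInstance]

end main

end Fermat.Agent.S40x.TameAlg.GenericNorm
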