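/-
S40 research support (helper38): abstract TAME lemma, determinant form (fallback of the UFD form).
`O` a PID with fraction field `K`; `R` an `O`-algebra (the local ring at a node), `g u : R` with
`R ⧸ (g)` finite free over `O` and `u` injective on it; `S` a Dedekind `K`-algebra (the generic
fibre `R[1/π]`, or its normalisation) in which `(g) = I ^ p` ("the divisor of `g` is divisible by
`p`").  If the norm of `u` on `R ⧸ (g)` is computed on the generic fibre (hypothesis `hnorm`,
an instance of `Algebra.norm_localization`), then `p ∣ length_O (R ⧸ (g, u))`.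
-/
import Fermat.Agent.S40x.TameAlg.EdgeCore
import Fermat.Agent.S40x.TameAlg.GenericNorm

namespace Fermat.Agent.S40x.TameAlg.TameDet

open Module

variable {O : Type*} [CommRing O] [IsDomain O] [IsPrincipalIdealRing O]
variable {K : Type*} [Field K] [Algebra O K] [IsFractionRing O K]
variable {R : Type*} [CommRing R] [Algebra O R]
variable {S : Type*} [CommRing S] [IsDedekindDomain S] [Algebra K S]

/-- **Abstract TAME lemma, determinant form.** -/
theorem length_quot_sup_eq_nsmul_of_pow (g u : R)
    [Module.Free O (R ⧸ Ideal.span {g})] [Module.Finite O (R ⧸ Ideal.span {g})]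
    (hinj : Function.Injective
      (LinearMap.mulLeft O (Ideal.Quotient.mk (Ideal.span {g}) u)))
    (I : Ideal S) (hI : I ≠ ⊥) (p : ℕ) (hp : 0 < p) [Module.Finite K (S ⧸ I ^ p)] (uS : S)
    (hnorm : algebraMap O K (Algebra.norm O (Ideal.Quotient.mk (Ideal.span {g}) u)) =
      Algebra.norm K (Ideal.Quotient.mk (I ^ p) uS)) :
    ∃ k : ℕ∞, Module.length O (R ⧸ (Ideal.span {g} ⊔ Ideal.span {u})) = p • k := by
  refine EdgeCore.length_quot_sup_eq_nsmul g u hinj p hp
    (Algebra.norm K (Ideal.Quotient.mk I uS)) ?_
  rw [hnorm, GenericNorm.norm_quot_pow I hI p uS]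

end Fermat.Agent.S40x.TameAlg.TameDet
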